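import Fermat.Agent.S43.Dict.BadModel

/-!
# S45, WIRE (upper half): the integral model `P.freyCurveInt` of the Frey curve

`P.freyCurveInt` is an integral model of `P.freyCurve`, it is semistable, and its bad primes
divide `a b c`.
-/

set_option autoImplicit false
open WeierstrassCurve

namespace Fermat.Agent.S45.Wire.Up

theorem two_dvd_b (P : FreyPackage) : (2 : ℤ) ∣ P.b :=
  (ZMod.intCast_zmod_eq_zero_iff_dvd P.b 2).1 P.hb2

theorem four_dvd_frey (P : FreyPackage) : (4 : ℤ) ∣ P.b ^ P.p - 1 - P.a ^ P.p := by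
  obtain ⟨k, hk⟩ := two_dvd_b P
  have h1 : (4 : ℤ) ∣ P.b ^ P.p :=
    dvd_trans (⟨k ^ 2, by rw [hk]; ring⟩ : (4 : ℤ) ∣ P.b ^ 2)
      (pow_dvd_pow P.b (by have := P.hp5; omega))
  have h2 : (4 : ℤ) ∣ P.a + 1 := by
    have : ((P.a + 1 : ℤ) : ZMod 4) = 0 := by
      rw [Int.cast_add, P.ha4]
      decide
    exact (ZMod.intCast_zmod_eq_zero_iff_dvd _ 4).1 this
  have h3 : P.a + 1 ∣ P.a ^ P.p + 1 ^ P.p := Odd.add_dvd_pow_add_pow P.a 1 P.hp_odd
  rw [one_pow] at h3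
  have h4 : P.b ^ P.p - 1 - P.a ^ P.p = P.b ^ P.p - (P.a ^ P.p + 1) := by ring
  rw [h4]
  exact dvd_sub h1 (h2.trans h3)

theorem sixteen_dvd_frey (P : FreyPackage) : (16 : ℤ) ∣ -(P.a ^ P.p) * P.b ^ P.p := by
  obtain ⟨k, hk⟩ := two_dvd_b P
  have h1 : (16 : ℤ) ∣ P.b ^ P.p :=
    dvd_trans (⟨k ^ 4, by rw [hk]; ring⟩ : (16 : ℤ) ∣ P.b ^ 4)
      (pow_dvd_pow P.b (by have := P.hp5; omega))
  exact h1.mul_left _

theorem map_freyCurveInt (P : FreyPackage) :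
    P.freyCurveInt.map (Int.castRingHom ℚ) = P.freyCurve := by
  ext
  · simp [FreyPackage.freyCurveInt, FreyPackage.freyCurve]
  · simp only [FreyPackage.freyCurveInt, FreyPackage.freyCurve, WeierstrassCurve.map_a₂,
      eq_intCast]
    rw [Int.cast_div (four_dvd_frey P) (by norm_num)]
    push_cast
    rfl
  · simp [FreyPackage.freyCurveInt, FreyPackage.freyCurve]
  · simp only [FreyPackage.freyCurveInt, FreyPackage.freyCurve, WeierstrassCurve.map_a₄,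
      eq_intCast]
    rw [Int.cast_div (sixteen_dvd_frey P) (by norm_num)]
    push_cast
    rfl
  · simp [FreyPackage.freyCurveInt, FreyPackage.freyCurve]

theorem isIntegralModelOf_freyCurveInt (P : FreyPackage) :
    P.freyCurveInt.IsIntegralModelOf P.freyCurve :=
  ⟨1, by rw [one_smul, map_freyCurveInt]⟩

theorem freyCurveInt_c₄ (P : FreyPackage) :
    P.freyCurveInt.c₄ = (P.a ^ P.p) ^ 2 + P.a ^ P.p * P.b ^ P.p + (P.b ^ P.p) ^ 2 := by
  have h := Fermat.Agent.S43.Dict.frey_c₄ P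
  rw [← map_freyCurveInt, map_c₄, eq_intCast] at h
  exact_mod_cast h

theorem freyCurveInt_Δ_mul (P : FreyPackage) :
    256 * P.freyCurveInt.Δ = (P.a ^ P.p * P.b ^ P.p * (P.a ^ P.p + P.b ^ P.p)) ^ 2 := by
  have h := Fermat.Agent.S43.Dict.frey_Δ_mul P
  rw [← map_freyCurveInt, map_Δ, eq_intCast] at h
  exact_mod_cast h

theorem freyCurveInt_Δ_ne_zero (P : FreyPackage) : P.freyCurveInt.Δ ≠ 0 := by
  intro h0
  have h := freyCurveInt_Δ_mul P
  rw [h0, mul_zero, P.hFLT] at h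
  exact pow_ne_zero 2 (mul_ne_zero (mul_ne_zero (pow_ne_zero _ P.ha0) (pow_ne_zero _ P.hb0))
    (pow_ne_zero _ P.hc0)) h.symm

theorem dvd_abc_of_dvd_Δ (P : FreyPackage) {ℓ : ℕ} (hℓ : ℓ.Prime)
    (h : (ℓ : ℤ) ∣ P.freyCurveInt.Δ) : (ℓ : ℤ) ∣ P.a * P.b * P.c := by
  have hp : Prime (ℓ : ℤ) := Nat.prime_iff_prime_int.1 hℓ
  have h1 : (ℓ : ℤ) ∣ (P.a ^ P.p * P.b ^ P.p * (P.a ^ P.p + P.b ^ P.p)) ^ 2 := by
    rw [← freyCurveInt_Δ_mul]
    exact h.mul_left _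
  have h2 := hp.dvd_of_dvd_pow h1
  rw [P.hFLT] at h2
  rcases hp.dvd_or_dvd h2 with h3 | h3
  · rcases hp.dvd_or_dvd h3 with h4 | h4
    · exact ((hp.dvd_of_dvd_pow h4).mul_right _).mul_right _
    · exact ((hp.dvd_of_dvd_pow h4).mul_left _).mul_right _
  · exact (hp.dvd_of_dvd_pow h3).mul_left _

theorem isSemistableModel_freyCurveInt (P : FreyPackage) : P.freyCurveInt.IsSemistableModel := by
  intro ℓ hℓ hΔ
  rw [freyCurveInt_c₄]
  exact Fermat.Agent.S43.Dict.not_dvd_frey_c₄ P hℓ (dvd_abc_of_dvd_Δ P hℓ hΔ)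

end Fermat.Agent.S45.Wire.Up
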